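import Fermat.Agent.LT.T3.R.Spec
import Fermat.Agent.LT.T3.H846.PureUpper

/-!
# Row LT, tower T3, station T3.18R, leaf R.5 `PureUpperRC` (helper857, OFF-MAIN)

`pureUpperRC857 (K) : R.PureUpperRC K` = the frozen Prop of `LT/T3/R/Spec.lean`
(helper14@15de5f60f, sha256 a528b35a), VERBATIM, unconditional (registry row 2302).

The proof of the model M.5 (`pureUpperMC474`, helper474; `pureUpperC846`, helper846) with the
components at the real places in `GL₂(ℝ)`: `reGL` is multiplicative and maps `upperGL` to
`upperGL` (`reGL_upperGL857`); the component at a real place of an element of `K⁰` lies in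
`SO(2)` (`inSO2_reGL857`); `F w` is of weight `n w` on both sides, which gives the type factor
`(typeR k₁)⁻¹ (typeR k')⁻¹`.
-/

set_option autoImplicit false
set_option linter.style.haveILetI false
set_option linter.unusedSectionVars false

open IsDedekindDomain NumberField MeasureTheory
open Fermat.Agent.LT.H556.A0
open Fermat.Agent.LT.T3.AS Fermat.Agent.LT.T3.AS.N893 Fermat.Agent.LT.T3.AS.N893.H846
open Fermat.Agent.LT.T3.M

noncomputable section

namespace Fermat.Agent.LT.T3.R.H857

variable (K : Type) [Field K] [NumberField K]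

/-- `reGL` maps `upperGL` to `upperGL`. -/
theorem reGL_upperGL857 (w : InfinitePlace K) (hw : w.IsReal) (c₁ c₂ : (Adl K)ˣ) (X : Adl K) :
    reGL K w hw (upperGL c₁ c₂ X)
      = upperGL (reU K w hw c₁) (reU K w hw c₂) (reHom K w hw X) := by
  apply Units.ext
  ext i j
  fin_cases i <;> fin_cases j <;>
    simp [reGL, upperGL, reU, Matrix.GeneralLinearGroup.map]

/-- The complex component at a real place is the real component. -/
theorem infComp_eq_map857 (w : InfinitePlace K) (hw : w.IsReal) (g : G K) :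
    infComp w g
      = ((reGL K w hw g : GL (Fin 2) ℝ) : Matrix (Fin 2) (Fin 2) ℝ).map Complex.ofRealHom := by
  ext i j
  exact infComp_eq_reGL K w hw g i j

/-- The component at a real place of an element of `K⁰` lies in `SO(2)`. -/
theorem inSO2_reGL857 (w : InfinitePlace K) (hw : w.IsReal) (k : G K)
    (hk : T1.IsStdCompact K k) : T6.InSO2 (reGL K w hw k) := by
  obtain ⟨hu, hd⟩ := hk.2 w
  rw [infComp_eq_map857 K w hw k] at hu
  have hd' := hd hw
  rw [infComp_eq_map857 K w hw k] at hd'
  set M : Matrix (Fin 2) (Fin 2) ℝ := ((reGL K w hw k : GL (Fin 2) ℝ) : Matrix (Fin 2) (Fin 2) ℝ)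
    with hM
  have hinj : Function.Injective
      (fun A : Matrix (Fin 2) (Fin 2) ℝ => A.map Complex.ofRealHom) := by
    intro A B hAB
    ext i j
    have := congrFun (congrFun hAB i) j
    exact Complex.ofReal_injective this
  constructor
  · apply hinj
    show (M * M.transpose).map Complex.ofRealHom = (1 : Matrix (Fin 2) (Fin 2) ℝ).map _
    have e1 : (M.map Complex.ofRealHom).conjTranspose = M.transpose.map Complex.ofRealHom := by
      ext i j
      simp [Matrix.conjTranspose_apply, Matrix.map_apply, Matrix.transpose_apply]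
    rw [Matrix.map_mul, ← e1, hu]
    ext i j
    by_cases hij : i = j
    · subst hij
      simp
    · simp [Matrix.one_apply_ne hij]
  · have e2 : (M.map Complex.ofRealHom).det = ((M.det : ℝ) : ℂ) := by
      rw [Matrix.det_fin_two, Matrix.det_fin_two]
      simp [Matrix.map_apply]
    rw [e2] at hd'
    exact_mod_cast hd'

/-- **R.5 = N.2 real (the pure tensor on `K⁰ B K⁰`).** -/
theorem pureUpperRC857 : R.PureUpperRC K := by
  intro hR 𝔫 P n f₀ F hf₀ hF k₁ k' hk₁ hk' c₁ c₂ X
  have h0 : ∀ v ∈ P, f₀ v (finGL K v (k₁ * upperGL c₁ c₂ X * k'))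
      = f₀ v (upperGL (finU K v c₁) (finU K v c₂) (finHom K v X)) := by
    intro v hv
    rw [map_mul, map_mul, finGL_upperGL846]
    exact hf₀ v hv _ _ _ (isIntGL_finGL846 K v k₁ hk₁) (isIntGL_finGL846 K v k' hk')
  have hw : ∀ w : InfinitePlace K, F w (reGL K w (hR w) (k₁ * upperGL c₁ c₂ X * k'))
      = (T6.wtChar (n w) (reGL K w (hR w) k₁))⁻¹ * (T6.wtChar (n w) (reGL K w (hR w) k'))⁻¹
        * F w (upperGL (reU K w (hR w) c₁) (reU K w (hR w) c₂) (reHom K w (hR w) X)) := by
    intro w
    rw [map_mul, map_mul, reGL_upperGL857,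
      (hF w).right _ _ (inSO2_reGL857 K w (hR w) k' hk'),
      (hF w).left _ _ (inSO2_reGL857 K w (hR w) k₁ hk₁)]
    ring
  have hprod : ∏ w : InfinitePlace K, F w (reGL K w (hR w) (k₁ * upperGL c₁ c₂ X * k'))
      = ((typeR K hR n k₁)⁻¹ * (typeR K hR n k')⁻¹)
        * ∏ w : InfinitePlace K,
            F w (upperGL (reU K w (hR w) c₁) (reU K w (hR w) c₂) (reHom K w (hR w) X)) := by
    rw [Finset.prod_congr rfl (fun w _ => hw w), Finset.prod_mul_distrib,
      Finset.prod_mul_distrib, Finset.prod_inv_distrib, Finset.prod_inv_distrib]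
    rfl
  unfold R.pureFnR
  by_cases h : OutsideUM K 𝔫 P (k₁ * upperGL c₁ c₂ X * k')
  · rw [if_pos h, if_pos h, one_mul, Finset.prod_congr rfl h0, hprod]
    ring
  · rw [if_neg h, if_neg h, zero_mul, zero_mul, zero_mul]

example : R.PureUpperRC K := pureUpperRC857 K

end Fermat.Agent.LT.T3.R.H857

end
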